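import Fermat.Agent.ModFun.Hol
import Fermat.Prelude.Def_ModularCurve_X0ModL
import Mathlib.RingTheory.Localization.FractionRing
import Mathlib.Algebra.Polynomial.Lifts

/-!
# The function field of `X₀(N)` over `ℂ`

Every element of `Hol N` is integral over `ℂ[j]`, lies in `ℂ(j, j_N)`, and
`modularFunctionFieldFullC ℂ N` is the field of fractions of `Hol N`.
-/

set_option autoImplicit false

noncomputable section

open UpperHalfPlane hiding I
open Function Filter Complex CongruenceSubgroup Polynomial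
open scoped Manifold MatrixGroups Real Topology

namespace Fermat.Agent.ModFun

-- Otherwise every `Algebra` search on function fields and series tries slow dead ends first.
attribute [local instance 10000] SubalgebraClass.toAlgebra HahnSeries.powerSeriesAlgebra
attribute [local instance 10001] Subalgebra.algebra
attribute [-instance] IntermediateField.instNontriviallyNormedFieldSubtypeMem
  IsScalarTower.of_algHom NormMulClass.toNoZeroDivisors Subalgebra.normedCommRing
  Subalgebra.normedRing Subalgebra.seminormedRing Subalgebra.seminormedCommRing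

variable {N : ℕ} [NeZero N]

private theorem noZeroDivisors_hol : NoZeroDivisors (Hol N) := IsDomain.to_noZeroDivisors _
private theorem noZeroDivisors_cusp (h : ℕ) [NeZero h] : NoZeroDivisors (CuspAlg h) :=
  IsDomain.to_noZeroDivisors _
private theorem neZero_one_hol : NeZero (1 : Hol N) := NeZero.one
private theorem neZero_one_cusp (h : ℕ) : NeZero (1 : CuspAlg h) := NeZero.one

attribute [local instance 10002] noZeroDivisors_hol noZeroDivisors_cusp neZero_one_hol
  neZero_one_cusp

/-- Evaluation of an element of `CuspAlg h` at a point. -/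
def evalC (h : ℕ) (τ : ℍ) : CuspAlg h →ₐ[ℂ] ℂ :=
  (Pi.evalAlgHom ℂ (fun _ : ℍ => ℂ) τ).comp (CuspAlg h).val

@[simp]
theorem evalC_apply (h : ℕ) (τ : ℍ) (f : CuspAlg h) : evalC h τ f = (f : ℍ → ℂ) τ := rfl

theorem cuspAlg_ext {h : ℕ} {f g : CuspAlg h} (H : ∀ τ, (f : ℍ → ℂ) τ = (g : ℍ → ℂ) τ) : f = g :=
  Subtype.ext (funext H)

/-- `P ↦ P (j)` in `CuspAlg h`. -/
def evJC (h : ℕ) : Polynomial ℂ →ₐ[ℂ] CuspAlg h := Polynomial.aeval (jC h)

theorem evJC_apply (h : ℕ) (P : Polynomial ℂ) (τ : ℍ) :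
    (evJC h P : ℍ → ℂ) τ = P.eval (jH τ) := by
  have : evalC h τ (evJC h P) = P.eval (jH τ) := by
    rw [evJC, ← Polynomial.aeval_algHom_apply, Polynomial.coe_aeval_eq_eval]
    rfl
  exact this

theorem evJC_one_injective : Function.Injective (evJC 1) := by
  intro P Q h
  have h1 := congrArg (laurentExp 1) h
  rw [show evJC 1 P = jPoly P from rfl, show evJC 1 Q = jPoly Q from rfl, laurentExp_jPoly,
    laurentExp_jPoly] at h1
  refine eval₂_jqModC_injective (K := ℂ) ?_
  simpa [Polynomial.aeval_def, algebraMap_laurent_eq_C] using h1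

theorem evJC_injective (h : ℕ) : Function.Injective (evJC h) := by
  intro P Q hPQ
  refine evJC_one_injective (cuspAlg_ext fun τ => ?_)
  have := congrArg (fun x : CuspAlg h => (x : ℍ → ℂ) τ) hPQ
  simpa [evJC_apply] using this

/-- An `SL(2,ℤ)`-invariant element of `CuspAlg h` is a polynomial in `j`. -/
theorem exists_evJC_eq {h : ℕ} (F : CuspAlg h)
    (hF : ∀ (γ : SL(2, ℤ)) τ, (F : ℍ → ℂ) (γ • τ) = (F : ℍ → ℂ) τ) :
    ∃ P, evJC h P = F := by
  obtain ⟨P, hP⟩ := exists_jPoly_eq F.2.1 hF F.2.2.2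
  exact ⟨P, cuspAlg_ext fun τ => by rw [evJC_apply, hP]⟩

/-- A polynomial over `CuspAlg h` with invariant coefficients comes from `ℂ[j]`. -/
theorem exists_lift {h : ℕ} (p : Polynomial (CuspAlg h))
    (hp : ∀ (γ : SL(2, ℤ)) τ, p.map (evalC h (γ • τ)).toRingHom = p.map (evalC h τ).toRingHom) :
    p ∈ Polynomial.lifts (evJC h).toRingHom := by
  rw [Polynomial.lifts_iff_coeff_lifts]
  intro n
  obtain ⟨P, hP⟩ := exists_evJC_eq (p.coeff n) fun γ τ => by
    have := congrArg (fun q => Polynomial.coeff q n) (hp γ τ)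
    simpa [Polynomial.coeff_map] using this
  exact ⟨P, hP⟩

/-- `P ↦ P (j)` in `Hol N`. -/
def evJ (N : ℕ) [NeZero N] : Polynomial ℂ →ₐ[ℂ] Hol N := Polynomial.aeval (jd (one_dvd N))

theorem tr_jd_one_eq (c : Coset N) : tr N c (jd (one_dvd N)) = jC N :=
  cuspAlg_ext fun τ => tr_jd_one c τ

theorem tr_comp_evJ (c : Coset N) :
    (tr N c).toRingHom.comp (evJ N).toRingHom = (evJC N).toRingHom := by
  refine RingHom.ext fun P => ?_
  show tr N c (Polynomial.aeval _ P) = Polynomial.aeval _ P
  rw [← Polynomial.aeval_algHom_apply, tr_jd_one_eq]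

theorem evJ_injective : Function.Injective (evJ N) := by
  intro P Q h
  refine evJC_injective N ?_
  have := congrArg (tr N ((1 : SL(2, ℤ)) : Coset N)) h
  have h2 := tr_comp_evJ (N := N) ((1 : SL(2, ℤ)) : Coset N)
  exact (RingHom.congr_fun h2 P).symm.trans (this.trans (RingHom.congr_fun h2 Q))

theorem compSL_injective (g : SL(2, ℤ)) : Function.Injective (compSL N g) := by
  intro f₁ f₂ h
  refine Subtype.ext (funext fun τ => ?_)
  have := congrArg (fun x : CuspAlg N => (x : ℍ → ℂ) (g⁻¹ • τ)) h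
  simpa [smul_inv_smul] using this

theorem tr_injective (c : Coset N) : Function.Injective (tr N c) := compSL_injective _

theorem tr_eval₂ (c : Coset N) (x : Hol N) (Q : Polynomial (Polynomial ℂ)) :
    tr N c (Q.eval₂ (evJ N).toRingHom x) = (Q.map (evJC N).toRingHom).eval (tr N c x) := by
  rw [Polynomial.eval_map, ← tr_comp_evJ c]
  exact Polynomial.hom_eval₂ _ _ (tr N c).toRingHom _

section Sym

attribute [local instance] Fintype.ofFinite

/-- `∏ (X - g_c)` over all translates of `g`. -/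
def trPoly (g : Hol N) : Polynomial (CuspAlg N) := ∏ c : Coset N, (X - C (tr N c g))

theorem trPoly_monic (g : Hol N) : (trPoly g).Monic :=
  monic_prod_of_monic _ _ fun _ _ => monic_X_sub_C _

theorem natDegree_trPoly (g : Hol N) : (trPoly g).natDegree = Nat.card (Coset N) := by
  rw [trPoly, natDegree_finsetProd_X_sub_C_eq_card, Finset.card_univ, Nat.card_eq_fintype_card]

theorem map_evalC_trPoly (g : Hol N) (τ : ℍ) :
    (trPoly g).map (evalC N τ).toRingHom
      = ∏ c : Coset N, (X - C ((tr N c g : ℍ → ℂ) τ)) := by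
  rw [trPoly, Polynomial.map_prod]
  refine Finset.prod_congr rfl fun c _ => ?_
  simp

theorem trPoly_mem_lifts (g : Hol N) : trPoly g ∈ Polynomial.lifts (evJC N).toRingHom := by
  refine exists_lift _ fun γ τ => ?_
  simp only [map_evalC_trPoly, tr_smul_eq]
  exact Fintype.prod_equiv (MulAction.toPerm γ⁻¹) _ _ fun c => rfl

/-- The characteristic polynomial of `g` over `ℂ[j]`. -/
theorem exists_charPoly (g : Hol N) : ∃ Q : Polynomial (Polynomial ℂ),
    Q.Monic ∧ Q.natDegree = Nat.card (Coset N) ∧ Q.map (evJC N).toRingHom = trPoly g ∧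
      Q.eval₂ (evJ N).toRingHom g = 0 := by
  obtain ⟨Q, hQ, hdeg, hmon⟩ :=
    Polynomial.lifts_and_natDegree_eq_and_monic (trPoly_mem_lifts g) (trPoly_monic g)
  refine ⟨Q, hmon, hdeg.trans (natDegree_trPoly g), hQ, ?_⟩
  refine tr_injective ((1 : SL(2, ℤ)) : Coset N) ?_
  rw [map_zero, tr_eval₂, hQ, trPoly, Polynomial.eval_prod]
  exact Finset.prod_eq_zero (Finset.mem_univ ((1 : SL(2, ℤ)) : Coset N)) (by simp)

theorem interp_perm {ι R : Type*} [Fintype ι] [DecidableEq ι] [CommRing R] (e : Equiv.Perm ι)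
    (u v : ι → R) :
    ∑ c : ι, C (u (e c)) * ∏ c' ∈ Finset.univ.erase c, (X - C (v (e c')))
      = ∑ c : ι, C (u c) * ∏ c' ∈ Finset.univ.erase c, (X - C (v c')) := by
  refine Fintype.sum_equiv e _ (fun c => C (u c) * ∏ c' ∈ Finset.univ.erase c, (X - C (v c')))
    fun c => ?_
  congr 1
  exact Finset.prod_equiv e (fun c' => by simp) fun c' _ => rfl

/-- The interpolation sum. -/
def interpSum [DecidableEq (Coset N)] (g x : Hol N) : Polynomial (CuspAlg N) :=
  ∑ c : Coset N, C (tr N c g) * ∏ c' ∈ Finset.univ.erase c, (X - C (tr N c' x))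

theorem map_evalC_interpSum [DecidableEq (Coset N)] (g x : Hol N) (τ : ℍ) :
    (interpSum g x).map (evalC N τ).toRingHom
      = ∑ c : Coset N, C ((tr N c g : ℍ → ℂ) τ)
          * ∏ c' ∈ Finset.univ.erase c, (X - C ((tr N c' x : ℍ → ℂ) τ)) := by
  simp only [interpSum, Polynomial.map_sum, Polynomial.map_prod, Polynomial.map_mul,
    Polynomial.map_sub, Polynomial.map_X, Polynomial.map_C, AlgHom.toRingHom_eq_coe,
    RingHom.coe_coe, evalC_apply]

theorem interpSum_mem_lifts [DecidableEq (Coset N)] (g x : Hol N) :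
    interpSum g x ∈ Polynomial.lifts (evJC N).toRingHom := by
  refine exists_lift _ fun γ τ => ?_
  rw [map_evalC_interpSum, map_evalC_interpSum]
  simp only [tr_smul_eq]
  exact interp_perm (MulAction.toPerm γ⁻¹) (fun c => (tr N c g : ℍ → ℂ) τ)
    (fun c => (tr N c x : ℍ → ℂ) τ)

open scoped Classical in
/-- Lagrange interpolation: `g * Φ'(j_N) ∈ ℂ[j, j_N]`. -/
theorem exists_interpolation (g : Hol N) :
    ∃ R Q : Polynomial (Polynomial ℂ), Q.Monic ∧
      (derivative Q).eval₂ (evJ N).toRingHom (jd (dvd_refl N)) ≠ 0 ∧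
      g * (derivative Q).eval₂ (evJ N).toRingHom (jd (dvd_refl N))
        = R.eval₂ (evJ N).toRingHom (jd (dvd_refl N)) := by
  set x := jd (dvd_refl N) with hx
  obtain ⟨Q, hQ, -, hQmap, -⟩ := exists_charPoly x
  set L : Polynomial (CuspAlg N) :=
    ∑ c : Coset N, C (tr N c g) * ∏ c' ∈ Finset.univ.erase c, (X - C (tr N c' x)) with hL
  obtain ⟨R, hR⟩ : ∃ R : Polynomial (Polynomial ℂ), R.map (evJC N).toRingHom = L :=
    interpSum_mem_lifts g x
  have hev : ∀ c, ∏ c' ∈ Finset.univ.erase c, (tr N c x - tr N c' x) ≠ 0 := fun c =>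
    Finset.prod_ne_zero_iff.mpr fun c' hc' h0 =>
      (Finset.ne_of_mem_erase hc') (tr_jd_injective (sub_eq_zero.mp h0)).symm
  have hd : ∀ c, tr N c ((derivative Q).eval₂ (evJ N).toRingHom x)
      = ∏ c' ∈ Finset.univ.erase c, (tr N c x - tr N c' x) := by
    intro c
    rw [tr_eval₂, ← derivative_map, hQmap, trPoly, Polynomial.derivative_prod_finset,
      Polynomial.eval_finsetSum, Finset.sum_eq_single c]
    · rw [derivative_X_sub_C, mul_one, Polynomial.eval_prod]
      simp only [eval_sub, eval_X, eval_C]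
    · intro b _ hb
      rw [Polynomial.eval_mul, Polynomial.eval_prod,
        Finset.prod_eq_zero (Finset.mem_erase.mpr ⟨Ne.symm hb, Finset.mem_univ c⟩)
          (by rw [eval_sub, eval_X, eval_C, sub_self]), zero_mul]
    · exact fun hc => absurd (Finset.mem_univ _) hc
  refine ⟨R, Q, hQ, fun h0 => ?_, ?_⟩
  · refine hev ((1 : SL(2, ℤ)) : Coset N) ?_
    rw [← hd, h0, map_zero]
  · refine tr_injective ((1 : SL(2, ℤ)) : Coset N) ?_
    rw [map_mul, hd, tr_eval₂, hR, hL, Polynomial.eval_finsetSum,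
      Finset.sum_eq_single ((1 : SL(2, ℤ)) : Coset N)]
    · rw [Polynomial.eval_mul, eval_C, Polynomial.eval_prod]
      simp only [eval_sub, eval_X, eval_C]
    · intro b _ hb
      rw [Polynomial.eval_mul, Polynomial.eval_prod,
        Finset.prod_eq_zero (Finset.mem_erase.mpr ⟨Ne.symm hb, Finset.mem_univ _⟩)
          (by rw [eval_sub, eval_X, eval_C, sub_self]), mul_zero]
    · exact fun hc => absurd (Finset.mem_univ _) hc

end Sym

theorem qExp_jd_one : qExp N (jd (one_dvd N)) = ModularCurve.jqModC ℂ := by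
  rw [qExp_jd, ModularCurve.qExpand_one_apply]

theorem qExp_evJ (P : Polynomial ℂ) :
    qExp N (evJ N P) = Polynomial.aeval (ModularCurve.jqModC ℂ) P := by
  rw [evJ, ← Polynomial.aeval_algHom_apply, qExp_jd_one]

theorem qExp_eval₂_mem {R : Polynomial (Polynomial ℂ)} :
    qExp N (R.eval₂ (evJ N).toRingHom (jd (dvd_refl N)))
      ∈ ModularCurve.modularFunctionFieldC ℂ N := by
  rw [Polynomial.eval₂_eq_sum_range, map_sum]
  refine sum_mem fun i _ => ?_
  rw [map_mul, map_pow, qExp_jd]
  refine mul_mem ?_ (pow_mem (ModularCurve.jqNModC_mem ℂ N) i)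
  show qExp N (evJ N (R.coeff i)) ∈ _
  rw [qExp_evJ, ← SetLike.mem_coe, Polynomial.aeval_eq_sum_range]
  refine sum_mem fun k _ => ?_
  rw [Algebra.smul_def]
  exact mul_mem ((ModularCurve.modularFunctionFieldC ℂ N).algebraMap_mem _)
    (pow_mem (ModularCurve.jqModC_mem ℂ N) k)

theorem qExp_mem_fieldC (g : Hol N) : qExp N g ∈ ModularCurve.modularFunctionFieldC ℂ N := by
  obtain ⟨R, Q, -, hne, h⟩ := exists_interpolation g
  have h1 := congrArg (qExp N) h
  rw [map_mul] at h1
  have hne' : qExp N ((derivative Q).eval₂ (evJ N).toRingHom (jd (dvd_refl N))) ≠ 0 :=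
    (map_ne_zero_iff _ (qExp_injective N)).mpr hne
  rw [eq_div_iff_mul_eq hne' |>.mpr h1]
  exact div_mem qExp_eval₂_mem qExp_eval₂_mem

theorem fullC_eq_fieldC :
    ModularCurve.modularFunctionFieldFullC ℂ N = ModularCurve.modularFunctionFieldC ℂ N := by
  refine le_antisymm ?_ (ModularCurve.modularFunctionFieldC_le_full ℂ N)
  rw [ModularCurve.modularFunctionFieldFullC, IntermediateField.adjoin_le_iff]
  rintro x ⟨d, hne, hd, rfl⟩
  have := hne
  rw [← qExp_jd hd]
  exact qExp_mem_fieldC _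

/-- The function field over `ℂ`. -/
abbrev FC (N : ℕ) : IntermediateField ℂ (LaurentSeries ℂ) :=
  ModularCurve.modularFunctionFieldFullC ℂ N

theorem qExp_mem_FC (g : Hol N) : qExp N g ∈ FC N :=
  ModularCurve.modularFunctionFieldC_le_full ℂ N (qExp_mem_fieldC g)

/-- `qExp` into the function field. -/
def toFC (N : ℕ) [NeZero N] : Hol N →ₐ[ℂ] FC N :=
  (qExp N).codRestrict (FC N).toSubalgebra qExp_mem_FC

@[simp]
theorem coe_toFC (g : Hol N) : (toFC N g : LaurentSeries ℂ) = qExp N g := rfl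

theorem toFC_injective : Function.Injective (toFC N) := fun _ _ h =>
  qExp_injective N (congrArg Subtype.val h)

-- Used in place of the generic `map_add` and `map_mul`, whose class searches are slow here.
private theorem qExp_map_add (a b : Hol N) : qExp N (a + b) = qExp N a + qExp N b :=
  (qExp N).toRingHom.map_add a b

private theorem qExp_map_mul (a b : Hol N) : qExp N (a * b) = qExp N a * qExp N b :=
  (qExp N).toRingHom.map_mul a b

theorem exists_div_eq (x : FC N) : ∃ a b : Hol N, b ≠ 0 ∧ x = toFC N a / toFC N b := by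
  obtain ⟨x, hx⟩ := x
  suffices h : ∃ a b : Hol N, b ≠ 0 ∧ x = qExp N a / qExp N b by
    obtain ⟨a, b, hb, h⟩ := h
    exact ⟨a, b, hb, Subtype.ext (by rw [IntermediateField.coe_div]; exact h)⟩
  change x ∈ ModularCurve.modularFunctionFieldFullC ℂ N at hx
  rw [ModularCurve.modularFunctionFieldFullC] at hx
  induction hx using IntermediateField.adjoin_induction with
  | mem y hy =>
    obtain ⟨d, hne, hd, rfl⟩ := hy
    have := hne
    exact ⟨jd hd, 1, one_ne_zero, by simp [qExp_jd]⟩
  | algebraMap c => exact ⟨algebraMap ℂ _ c, 1, one_ne_zero, by simp⟩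
  | add y z _ _ ihy ihz =>
    obtain ⟨a, b, hb, rfl⟩ := ihy
    obtain ⟨a', b', hb', rfl⟩ := ihz
    refine ⟨a * b' + b * a', b * b', mul_ne_zero hb hb', ?_⟩
    have h1 := (map_ne_zero_iff _ (qExp_injective N)).mpr hb
    have h2 := (map_ne_zero_iff _ (qExp_injective N)).mpr hb'
    rw [qExp_map_add, qExp_map_mul, qExp_map_mul, qExp_map_mul, div_add_div _ _ h1 h2]
  | inv y _ ihy =>
    obtain ⟨a, b, hb, rfl⟩ := ihy
    rcases eq_or_ne a 0 with rfl | ha
    · exact ⟨0, 1, one_ne_zero, by simp⟩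
    · exact ⟨b, a, ha, by rw [inv_div]⟩
  | mul y z _ _ ihy ihz =>
    obtain ⟨a, b, hb, rfl⟩ := ihy
    obtain ⟨a', b', hb', rfl⟩ := ihz
    exact ⟨a * a', b * b', mul_ne_zero hb hb', by
      rw [qExp_map_mul, qExp_map_mul, div_mul_div_comm]⟩

instance : Algebra (Hol N) (FC N) := (toFC N).toRingHom.toAlgebra

attribute [local instance 10002] Algebra.toSMul
attribute [local instance 10003]
  instAlgebraSubtypeForallUpperHalfPlaneComplexMemSubalgebraHolLaurentSeriesIntermediateFieldFC

theorem algebraMap_hol_apply (g : Hol N) : algebraMap (Hol N) (FC N) g = toFC N g := rfl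

instance : IsScalarTower ℂ (Hol N) (FC N) :=
  IsScalarTower.of_algebraMap_eq fun c => ((toFC N).commutes c).symm

instance : FaithfulSMul (Hol N) (FC N) :=
  (faithfulSMul_iff_algebraMap_injective _ _).mpr toFC_injective

instance : IsFractionRing (Hol N) (FC N) :=
  IsFractionRing.of_field (Hol N) (FC N) fun x => by
    obtain ⟨a, b, -, h⟩ := exists_div_eq x
    exact ⟨a, b, h⟩

end Fermat.Agent.ModFun
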