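import Fermat.Agent.ModFun.Affine
import Mathlib.NumberTheory.ModularForms.CongruenceSubgroups
import Mathlib.GroupTheory.GroupAction.Quotient

/-!
# Holomorphic `Γ₀(N)`-invariant functions meromorphic at all cusps, and their translates
-/

set_option autoImplicit false

noncomputable section

open UpperHalfPlane hiding I
open Function Filter Complex CongruenceSubgroup
open scoped Manifold MatrixGroups Real Topology

namespace Fermat.Agent.ModFun

/-- Hermite normal form of `(d 0; 0 1) * g`. -/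
theorem exists_hermite (d : ℕ) [NeZero d] (g : SL(2, ℤ)) :
    ∃ (δ : SL(2, ℤ)) (a : ℕ) (b : ℤ) (e : ℕ), 0 < a ∧ 0 < e ∧ a * e = d ∧
      (d : ℤ) * g 0 0 = δ 0 0 * a ∧ (d : ℤ) * g 0 1 = δ 0 0 * b + δ 0 1 * e ∧
      g 1 0 = δ 1 0 * a ∧ g 1 1 = δ 1 0 * b + δ 1 1 * e := by
  have hdet : g 0 0 * g 1 1 - g 0 1 * g 1 0 = 1 := by
    have := g.det_coe
    rw [Matrix.det_fin_two] at this
    exact this
  set p := g 0 0; set q := g 0 1; set r := g 1 0; set s := g 1 1
  have hd : (0 : ℤ) < d := by exact_mod_cast Nat.pos_of_ne_zero (NeZero.ne d)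
  set a : ℕ := Int.gcd ((d : ℤ) * p) r with hadef
  have ha : 0 < a := by
    rw [hadef, Int.gcd_pos_iff]
    by_contra h
    push Not at h
    obtain ⟨h1, h2⟩ := h
    rcases mul_eq_zero.mp h1 with h3 | h3
    · omega
    · rw [h3, h2] at hdet; simp at hdet
  have ha' : (0 : ℤ) < a := by exact_mod_cast ha
  obtain ⟨x, hx⟩ : (a : ℤ) ∣ (d : ℤ) * p := Int.gcd_dvd_left _ _
  obtain ⟨y, hy⟩ : (a : ℤ) ∣ r := Int.gcd_dvd_right _ _
  have hbez := Int.gcd_eq_gcd_ab ((d : ℤ) * p) r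
  rw [← hadef] at hbez
  set v := Int.gcdA ((d : ℤ) * p) r
  set w := Int.gcdB ((d : ℤ) * p) r
  have hdet' : x * v + y * w = 1 := by
    refine mul_left_cancel₀ ha'.ne' ?_
    rw [mul_one]; linear_combination -hbez - v * hx - w * hy
  set e' : ℤ := -y * ((d : ℤ) * q) + x * s with he'def
  have he' : (a : ℤ) * e' = d := by
    rw [he'def]; linear_combination (d : ℤ) * q * hy - s * hx + (d : ℤ) * hdet
  have he'pos : 0 < e' := by
    by_contra h; push Not at h
    have := mul_nonpos_of_nonneg_of_nonpos ha'.le h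
    omega
  obtain ⟨e, he⟩ := Int.eq_ofNat_of_zero_le he'pos.le
  refine ⟨⟨!![x, -w; y, v], by rw [Matrix.det_fin_two_of]; linear_combination hdet'⟩, a,
    v * ((d : ℤ) * q) + w * s, e, ha, by omega, ?_, ?_, ?_, ?_, ?_⟩
  · have : (a : ℤ) * e = d := by rw [← he]; exact he'
    exact_mod_cast this
  · show _ = x * a; linear_combination hx
  · show _ = x * _ + -w * e
    rw [← he, he'def]
    linear_combination (-(d : ℤ) * q) * hdet'
  · show _ = y * a; linear_combination hy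
  · show _ = y * _ + v * e
    rw [← he, he'def]
    linear_combination (-s) * hdet'

theorem coe_SL_smul (g : SL(2, ℤ)) (τ : ℍ) :
    ((g • τ : ℍ) : ℂ) = ((g 0 0 : ℂ) * τ + g 0 1) / ((g 1 0 : ℂ) * τ + g 1 1) := by
  rw [UpperHalfPlane.coe_specialLinearGroup_apply]
  simp

theorem scaleH_smul_of_hermite {d : ℕ} [NeZero d] {g δ : SL(2, ℤ)} {a : ℕ} {b : ℤ} {e : ℕ}
    [NeZero a] [NeZero e]
    (h1 : (d : ℤ) * g 0 0 = δ 0 0 * a) (h2 : (d : ℤ) * g 0 1 = δ 0 0 * b + δ 0 1 * e)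
    (h3 : g 1 0 = δ 1 0 * a) (h4 : g 1 1 = δ 1 0 * b + δ 1 1 * e) (τ : ℍ) :
    scaleH d (g • τ) = δ • affine a b e τ := by
  apply UpperHalfPlane.ext
  rw [coe_scaleH, coe_SL_smul, coe_SL_smul, coe_affine]
  have he : (e : ℂ) ≠ 0 := by exact_mod_cast NeZero.ne e
  have h1' : (d : ℂ) * g 0 0 = δ 0 0 * a := by exact_mod_cast h1
  have h2' : (d : ℂ) * g 0 1 = δ 0 0 * b + δ 0 1 * e := by exact_mod_cast h2
  have h3' : (g 1 0 : ℂ) = δ 1 0 * a := by exact_mod_cast h3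
  have h4' : (g 1 1 : ℂ) = δ 1 0 * b + δ 1 1 * e := by exact_mod_cast h4
  have hnum : (δ 0 0 : ℂ) * (((a : ℂ) * τ + b) / e) + δ 0 1
      = ((d : ℂ) * ((g 0 0 : ℂ) * τ + g 0 1)) / e := by
    rw [mul_add, ← mul_assoc, h1', h2']; field_simp; ring
  have hden : (δ 1 0 : ℂ) * (((a : ℂ) * τ + b) / e) + δ 1 1
      = ((g 1 0 : ℂ) * τ + g 1 1) / e := by
    rw [h3', h4']; field_simp; ring
  rw [hnum, hden, div_div_div_cancel_right₀ he, mul_div_assoc]

/-- Holomorphic `Γ₀(N)`-invariant functions, meromorphic at every cusp. -/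
def Hol (N : ℕ) : Subalgebra ℂ (ℍ → ℂ) where
  carrier := {f | MDiff f ∧ (∀ g ∈ Gamma0 N, ∀ τ : ℍ, f (g • τ) = f τ) ∧
    ∀ g : SL(2, ℤ), MeroAtInfty fun τ => f (g • τ)}
  mul_mem' hf hg := ⟨hf.1.mul hg.1, fun g hg' τ => by simp only [Pi.mul_apply, hf.2.1 g hg' τ, hg.2.1 g hg' τ],
    fun g => (hf.2.2 g).mul (hg.2.2 g)⟩
  add_mem' hf hg := ⟨hf.1.add hg.1, fun g hg' τ => by simp only [Pi.add_apply, hf.2.1 g hg' τ, hg.2.1 g hg' τ],
    fun g => (hf.2.2 g).add (hg.2.2 g)⟩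
  algebraMap_mem' c := ⟨mdifferentiable_const, fun _ _ _ => rfl,
    fun _ => MeroAtInfty.of_isBounded (isBounded_const c)⟩

variable {N : ℕ}

theorem mdifferentiable_comp_SL {f : ℍ → ℂ} (hf : MDiff f) (g : SL(2, ℤ)) :
    MDiff (fun τ : ℍ => f (g • τ)) := by
  refine hf.comp (UpperHalfPlane.mdifferentiable_smul
    (g := (Matrix.SpecialLinearGroup.mapGL ℝ g)) ?_)
  simp

theorem conj_T_pow_mem_Gamma0 (N : ℕ) (g : SL(2, ℤ)) :
    g * ModularGroup.T ^ (N : ℤ) * g⁻¹ ∈ Gamma0 N := by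
  rw [Gamma0_mem]
  have h : ((g * ModularGroup.T ^ (N : ℤ) * g⁻¹) 1 0 : ℤ) = -(N : ℤ) * (g 1 0) ^ 2 := by
    simp only [Matrix.SpecialLinearGroup.coe_mul, ModularGroup.coe_T_zpow,
      Matrix.SpecialLinearGroup.coe_inv, Matrix.adjugate_fin_two, Matrix.mul_apply,
      Fin.sum_univ_two]
    simp
    ring
  rw [h]; simp

variable [NeZero N]

theorem comp_SL_mem_CuspAlg {f : ℍ → ℂ} (hf : f ∈ Hol N) (g : SL(2, ℤ)) :
    (fun τ => f (g • τ)) ∈ CuspAlg N := by
  refine ⟨mdifferentiable_comp_SL hf.1 g, fun τ => ?_, hf.2.2 g⟩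
  have h1 := hf.2.1 _ (conj_T_pow_mem_Gamma0 N g) (g • τ)
  rw [← mul_smul, inv_mul_cancel_right, mul_smul, modular_T_zpow_smul, Int.cast_natCast] at h1
  exact h1

theorem Hol_le_CuspAlg_one : Hol N ≤ CuspAlg 1 := by
  intro f hf
  refine ⟨hf.1, fun τ => ?_, by simpa using hf.2.2 1⟩
  rw [Nat.cast_one, ← modular_T_smul]
  exact hf.2.1 _ (by simp [Gamma0_mem, ModularGroup.coe_T]) τ

variable (N)

/-- The expansion of an element of `Hol N` at infinity. -/
def qExp : Hol N →ₐ[ℂ] LaurentSeries ℂ :=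
  (laurentExp 1).comp (Subalgebra.inclusion (Hol_le_CuspAlg_one (N := N)))

theorem qExp_injective : Function.Injective (qExp N) :=
  (laurentExp_injective 1).comp (Subalgebra.inclusion_injective (Hol_le_CuspAlg_one (N := N)))

instance : IsDomain (Hol N) :=
  Function.Injective.isDomain (qExp N).toRingHom (qExp_injective N)

/-- `f ↦ f ∘ g`. -/
def compSL (g : SL(2, ℤ)) : Hol N →ₐ[ℂ] CuspAlg N where
  toFun f := ⟨_, comp_SL_mem_CuspAlg f.2 g⟩
  map_one' := rfl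
  map_mul' _ _ := rfl
  map_zero' := rfl
  map_add' _ _ := rfl
  commutes' _ := rfl

@[simp]
theorem compSL_apply (g : SL(2, ℤ)) (f : Hol N) (τ : ℍ) :
    (compSL N g f : ℍ → ℂ) τ = (f : ℍ → ℂ) (g • τ) := rfl

/-- The coset space `SL(2,ℤ) / Γ₀(N)`. -/
abbrev Coset : Type := SL(2, ℤ) ⧸ Gamma0 N

instance : Finite (Coset N) := Subgroup.finite_quotient_of_finiteIndex

/-- The translate of `f` attached to a left coset `g Γ₀(N)`: `τ ↦ f (g⁻¹ τ)`. -/
def tr (c : Coset N) : Hol N →ₐ[ℂ] CuspAlg N := compSL N c.out⁻¹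

variable {N}

theorem tr_mk (g : SL(2, ℤ)) (f : Hol N) (τ : ℍ) :
    (tr N (g : Coset N) f : ℍ → ℂ) τ = (f : ℍ → ℂ) (g⁻¹ • τ) := by
  obtain ⟨h, hh⟩ := QuotientGroup.mk_out_eq_mul (Gamma0 N) g
  rw [tr, compSL_apply, hh, mul_inv_rev, mul_smul]
  exact f.2.2.1 _ (inv_mem h.2) _

theorem tr_one (f : Hol N) (τ : ℍ) :
    (tr N ((1 : SL(2, ℤ)) : Coset N) f : ℍ → ℂ) τ = (f : ℍ → ℂ) τ := by
  rw [tr_mk, inv_one, one_smul]

theorem tr_smul_eq (g : SL(2, ℤ)) (c : Coset N) (f : Hol N) (τ : ℍ) :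
    (tr N c f : ℍ → ℂ) (g • τ) = (tr N (g⁻¹ • c) f : ℍ → ℂ) τ := by
  induction c using QuotientGroup.induction_on with
  | H x =>
    rw [MulAction.Quotient.smul_coe, tr_mk, tr_mk, smul_eq_mul, mul_inv_rev, inv_inv, mul_smul]

/-! ### The functions `j (d τ)` -/

theorem exists_scaleH_smul (d : ℕ) [NeZero d] (g : SL(2, ℤ)) :
    ∃ (δ : SL(2, ℤ)) (a : ℕ) (b : ℤ) (e : ℕ) (_ : NeZero a) (_ : NeZero e), a * e = d ∧
      g 1 0 = δ 1 0 * a ∧ ∀ τ : ℍ, scaleH d (g • τ) = δ • affine a b e τ := by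
  obtain ⟨δ, a, b, e, ha, he, hae, h1, h2, h3, h4⟩ := exists_hermite d g
  have : NeZero a := ⟨ha.ne'⟩
  have : NeZero e := ⟨he.ne'⟩
  exact ⟨δ, a, b, e, inferInstance, inferInstance, hae, h3,
    scaleH_smul_of_hermite h1 h2 h3 h4⟩

theorem jdC_mem_Hol {d : ℕ} [NeZero d] (hd : d ∣ N) : (jdC d : ℍ → ℂ) ∈ Hol N := by
  refine ⟨(jdC d).2.1, fun g hg τ => ?_, fun g => ?_⟩
  · rw [Gamma0_mem, ZMod.intCast_zmod_eq_zero_iff_dvd] at hg
    obtain ⟨k, hk⟩ : (d : ℤ) ∣ g 1 0 := (Int.natCast_dvd_natCast.mpr hd).trans hg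
    have hdet : g 0 0 * g 1 1 - g 0 1 * g 1 0 = 1 := by
      have := g.det_coe; rw [Matrix.det_fin_two] at this; exact this
    let δ : SL(2, ℤ) := ⟨!![g 0 0, (d : ℤ) * g 0 1; k, g 1 1], by
      rw [Matrix.det_fin_two_of]; linear_combination hdet + g 0 1 * hk⟩
    rw [jdC_apply, scaleH_smul_of_hermite (d := d) (g := g) (δ := δ) (a := d) (b := 0) (e := 1)
      (show _ = g 0 0 * (d : ℤ) by ring) (show _ = g 0 0 * 0 + (d : ℤ) * g 0 1 * _ by push_cast; ring)
      (show _ = k * (d : ℤ) by linear_combination hk)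
      (show _ = k * 0 + g 1 1 * _ by push_cast; ring), jH_smul]
    rfl
  · obtain ⟨δ, a, b, e, _, _, -, -, h⟩ := exists_scaleH_smul d g
    have : (fun τ => (jdC d : ℍ → ℂ) (g • τ)) = fun τ => jH (affine a b e τ) := by
      funext τ; rw [jdC_apply, h, jH_smul]
    rw [this]
    exact (comp_affine_mem a b e (jH_mem_CuspAlg 1)).2.2

/-- `τ ↦ j (d τ)` in `Hol N`. -/
def jd {d : ℕ} [NeZero d] (hd : d ∣ N) : Hol N := ⟨jdC d, jdC_mem_Hol hd⟩

theorem jd_apply {d : ℕ} [NeZero d] (hd : d ∣ N) (τ : ℍ) :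
    (jd hd : ℍ → ℂ) τ = jH (scaleH d τ) := rfl

theorem qExp_jd {d : ℕ} [NeZero d] (hd : d ∣ N) :
    qExp N (jd hd) = ModularCurve.qExpand ℂ d (ModularCurve.jqModC ℂ) :=
  laurentExp_jdC d

theorem scaleH_one (τ : ℍ) : scaleH 1 τ = τ := UpperHalfPlane.ext (by simp [coe_scaleH])

theorem jd_one_apply (τ : ℍ) : (jd (one_dvd N) : ℍ → ℂ) τ = jH τ := by
  rw [jd_apply, scaleH_one]

theorem tr_jd_one (c : Coset N) (τ : ℍ) : (tr N c (jd (one_dvd N)) : ℍ → ℂ) τ = jH τ := by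
  induction c using QuotientGroup.induction_on with
  | H x => rw [tr_mk, jd_one_apply, jH_smul]

/-- Only elements of `Γ₀(N)` fix `j (N τ)`. -/
theorem mem_Gamma0_of_jd_smul (g : SL(2, ℤ))
    (hg : ∀ τ : ℍ, jH (scaleH N (g • τ)) = jH (scaleH N τ)) : g ∈ Gamma0 N := by
  obtain ⟨δ, a, b, e, _, _, hae, h10, h⟩ := exists_scaleH_smul N g
  have h2 : laurentExp e (compAffine a b e (jC 1))
      = ModularCurve.qExpand ℂ e (laurentExp 1 (jdC N)) := by
    have h3 := laurentExp_mul e (jdC N)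
    have key : ∀ (k : ℕ) [NeZero k] (hk : k = e) (x : CuspAlg k),
        (x : ℍ → ℂ) = (compAffine a b e (jC 1) : ℍ → ℂ) →
        laurentExp e (compAffine a b e (jC 1)) = laurentExp k x := by
      rintro k _ rfl x hx
      exact congrArg _ (Subtype.ext hx.symm)
    rw [key (e * 1) (mul_one e) _ ?_, h3]
    funext τ
    show jH (scaleH N τ) = jH (affine a b e τ)
    rw [← hg τ, h, jH_smul]
  have h4 := congrArg (fun x => x.coeff ((e : ℤ) * -(N : ℤ))) h2
  rw [laurentExp_jdC, laurentExp_compAffine, laurentExp_jC] at h4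
  simp only [ModularCurve.qExpand_coeff_mul] at h4
  have h5 : ((ModularCurve.qExpand ℂ N) (ModularCurve.jqModC ℂ)).coeff (-(N : ℤ)) = 1 := by
    rw [show -(N : ℤ) = (N : ℤ) * -1 by ring, ModularCurve.qExpand_coeff_mul]
    have := ModularCurve.coeff_jqModC_pow_self ℂ 1
    simpa using this
  rw [h5] at h4
  by_cases hk : (a : ℤ) ∣ (e : ℤ) * -(N : ℤ)
  · obtain ⟨k, hk'⟩ := hk
    rw [hk', ModularCurve.qExpand_coeff_mul, coeff_twist] at h4
    have hk1 : -1 ≤ k := by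
      by_contra hlt
      push Not at hlt
      have := ModularCurve.coeff_jqModC_pow_of_lt ℂ (b := 1) (m := k) (by simpa using hlt)
      rw [pow_one] at this
      rw [this, mul_zero] at h4
      exact zero_ne_one h4
    have hle : e * N ≤ a := by
      have h6 : (a : ℤ) * -1 ≤ (a : ℤ) * k := mul_le_mul_of_nonneg_left hk1 (Int.natCast_nonneg a)
      rw [← hk'] at h6
      have : (e : ℤ) * N ≤ a := by linarith
      exact_mod_cast this
    have hapos : 0 < a := Nat.pos_of_ne_zero (NeZero.ne a)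
    have he1 : e = 1 := by
      rw [← hae] at hle
      rcases Nat.lt_or_ge 1 e with h7 | h7
      · exfalso
        have : a < e * (a * e) := by
          have : 1 < e * e := by nlinarith
          nlinarith
        omega
      · have := Nat.pos_of_ne_zero (NeZero.ne e)
        omega
    rw [he1, mul_one] at hae
    rw [Gamma0_mem, ZMod.intCast_zmod_eq_zero_iff_dvd, h10, hae]
    exact dvd_mul_left _ _
  · rw [ModularCurve.qExpand_coeff_of_not_dvd a _ hk] at h4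
    exact absurd h4 zero_ne_one

theorem tr_jd_injective : Function.Injective fun c : Coset N => tr N c (jd (dvd_refl N)) := by
  intro c c'
  induction c using QuotientGroup.induction_on with
  | H x =>
    induction c' using QuotientGroup.induction_on with
    | H y =>
      intro h
      rw [QuotientGroup.eq]
      apply mem_Gamma0_of_jd_smul
      intro τ
      have h1 := congrFun (congrArg Subtype.val h) (y • τ)
      simp only at h1
      rw [tr_mk, tr_mk, jd_apply, jd_apply, inv_smul_smul] at h1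
      rw [mul_smul]
      exact h1

end Fermat.Agent.ModFun
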