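import Fermat.Agent.ModFun.Embed

/-!
# Modular forms divided by powers of `Δ` lie in the function field
-/

set_option autoImplicit false

noncomputable section

open UpperHalfPlane hiding I
open Function Filter Complex CongruenceSubgroup
open scoped Manifold MatrixGroups ModularForm

namespace Fermat.Agent.ModFun

variable {N : ℕ} [NeZero N]

/-- The functions behaving like modular forms of weight `k` for `Γ₀(N)`. -/
def IsFormFun (N : ℕ) (k : ℕ) (f : ℍ → ℂ) : Prop :=
  MDiff f ∧ (∀ g ∈ Gamma0 N, f ∣[(k : ℤ)] g = f) ∧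
    ∀ g : SL(2, ℤ), IsBoundedAtImInfty (f ∣[(k : ℤ)] g)

omit [NeZero N] in
theorem IsFormFun.mul {k l : ℕ} {f g : ℍ → ℂ} (hf : IsFormFun N k f) (hg : IsFormFun N l g) :
    IsFormFun N (k + l) (f * g) := by
  refine ⟨hf.1.mul hg.1, fun γ hγ => ?_, fun γ => ?_⟩
  · rw [Nat.cast_add, ModularForm.mul_slash_SL2, hf.2.1 γ hγ, hg.2.1 γ hγ]
  · rw [Nat.cast_add, ModularForm.mul_slash_SL2]
    exact isBounded_mul (hf.2.2 γ) (hg.2.2 γ)

omit [NeZero N] in
theorem IsFormFun.pow {k : ℕ} {f : ℍ → ℂ} (hf : IsFormFun N k f) :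
    ∀ n : ℕ, 0 < n → IsFormFun N (n * k) (f ^ n)
  | 0, h => absurd h (lt_irrefl 0)
  | 1, _ => by simpa using hf
  | n + 2, _ => by
    have := (hf.pow (n + 1) n.succ_pos).mul hf
    rwa [← pow_succ, show (n + 1) * k + k = (n + 2) * k by ring] at this

omit [NeZero N] in
theorem discriminant_smul (g : SL(2, ℤ)) (τ : ℍ) :
    ModularForm.discriminant (g • τ) = denom g τ ^ (12 : ℤ) * ModularForm.discriminant τ :=
  SlashInvariantForm.slash_action_eqn'' CuspForm.discriminant (Γ := 𝒮ℒ) ⟨g, rfl⟩ τ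

omit [NeZero N] in
theorem div_disc_pow_smul {k : ℕ} (f : ℍ → ℂ) (g : SL(2, ℤ)) (τ : ℍ) :
    f (g • τ) / ModularForm.discriminant (g • τ) ^ k
      = (f ∣[((12 * k : ℕ) : ℤ)] g) τ / ModularForm.discriminant τ ^ k := by
  have hd := denom_ne_zero g τ
  have hD := ModularForm.discriminant_ne_zero τ
  rw [discriminant_smul, ModularForm.SL_slash_apply, mul_pow, zpow_neg, zpow_natCast]
  simp only [zpow_ofNat, ← pow_mul]
  field_simp

omit [NeZero N] in
theorem IsFormFun.div_disc_pow_mem {k : ℕ} {f : ℍ → ℂ} (hf : IsFormFun N (12 * k) f) :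
    (fun τ => f τ / ModularForm.discriminant τ ^ k) ∈ Hol N := by
  refine ⟨?_, fun g hg τ => ?_, fun g => ⟨k, ?_⟩⟩
  · rw [UpperHalfPlane.mdifferentiable_iff]
    exact (UpperHalfPlane.mdifferentiable_iff.mp hf.1).div
      ((UpperHalfPlane.mdifferentiable_iff.mp mdifferentiable_discriminant).pow k)
      fun z _ => pow_ne_zero _ (ModularForm.discriminant_ne_zero _)
  · show f (g • τ) / ModularForm.discriminant (g • τ) ^ k = f τ / ModularForm.discriminant τ ^ k
    rw [div_disc_pow_smul, hf.2.1 g hg]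
  · have : ModularForm.discriminant ^ k * (fun τ =>
        (fun τ => f τ / ModularForm.discriminant τ ^ k) (g • τ))
        = f ∣[((12 * k : ℕ) : ℤ)] g := by
      funext τ
      simp only [Pi.mul_apply, Pi.pow_apply]
      rw [div_disc_pow_smul, mul_div_cancel₀ _ (pow_ne_zero _ (ModularForm.discriminant_ne_zero τ))]
    rw [this]
    exact hf.2.2 g

end Fermat.Agent.ModFun
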