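import Fermat.Agent.ModFun.AtkinLehner
import Fermat.Agent.FF.HeckeInputsX0
import Mathlib.LinearAlgebra.Charpoly.ToMatrix
import Mathlib.RingTheory.Trace.Basic

/-!
# The Hecke correspondence at a prime `ℓ ∤ N`: degree and the roots of its characteristic polynomial
-/

set_option autoImplicit false

noncomputable section

open Polynomial AlgebraicCurve ModularCurve IntermediateField

namespace Fermat.Agent.ModFun

section Charpoly

variable {F E M : Type*} [Field F] [Field E] [Field M] [Algebra F E] [FiniteDimensional F E]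
  [Algebra F M]

/-- If there are `[E : F]` embeddings into `M`, they give all roots of the characteristic
polynomial of a multiplication. -/
theorem charpoly_map_eq_prod_of_card {σ : Type*} [Fintype σ] (φ : σ → (E →ₐ[F] M))
    (hφ : Function.Injective φ) (hcard : Fintype.card σ = Module.finrank F E) (x : E) :
    (Algebra.lmul F E x).charpoly.map (algebraMap F M)
      = ∏ s : σ, (X - C (φ s x)) := by
  classical
  let b : Module.Basis σ F E :=
    (Module.finBasis F E).reindex (Fintype.equivFinOfCardEq hcard).symm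
  set A : Matrix σ σ F := LinearMap.toMatrix b b (Algebra.lmul F E x) with hA
  let P : Matrix σ σ M := Matrix.of fun s i => φ s (b i)
  have hP : IsUnit P.det := by
    rw [isUnit_iff_ne_zero]
    intro h0
    obtain ⟨v, hv, hv0⟩ := Matrix.exists_vecMul_eq_zero_iff.mpr h0
    have hli : LinearIndependent M fun s => ⇑((φ s).toRingHom.toMonoidHom) :=
      (linearIndependent_monoidHom E M).comp (fun s => (φ s).toRingHom.toMonoidHom)
        fun s t hst => hφ (AlgHom.ext fun y => DFunLike.congr_fun hst y)
    rw [Fintype.linearIndependent_iff] at hli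
    refine hv (funext fun s => hli v (funext fun y => ?_) s)
    rw [Finset.sum_apply, Pi.zero_apply]
    simp only [Pi.smul_apply, smul_eq_mul]
    show ∑ s, v s * φ s y = 0
    rw [← b.sum_repr y]
    simp only [map_sum, map_smul, Finset.mul_sum]
    rw [Finset.sum_comm]
    refine Finset.sum_eq_zero fun i _ => ?_
    have h1 := congrFun hv0 i
    simp only [Matrix.vecMul, dotProduct, P, Matrix.of_apply, Pi.zero_apply] at h1
    rw [← mul_zero (algebraMap F M ((b.repr y) i)), ← h1, Finset.mul_sum]
    refine Finset.sum_congr rfl fun s _ => ?_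
    rw [Algebra.smul_def]
    ring
  have hconj : P * A.map (algebraMap F M) = Matrix.diagonal (fun s => φ s x) * P := by
    ext s j
    rw [Matrix.diagonal_mul, Matrix.mul_apply]
    simp only [P, Matrix.of_apply, Matrix.map_apply, hA, LinearMap.toMatrix_apply]
    rw [← map_mul]
    conv_rhs => rw [show x * b j = ∑ i, b.repr (x * b j) i • b i from (b.sum_repr _).symm,
      map_sum]
    refine Finset.sum_congr rfl fun i _ => ?_
    rw [map_smul, Algebra.smul_def, mul_comm]
    rfl
  rw [← LinearMap.charpoly_toMatrix (Algebra.lmul F E x) b, ← hA, ← Matrix.charpoly_map,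
    ← Matrix.charpoly_diagonal (fun s => φ s x)]
  let U : (Matrix σ σ M)ˣ := Matrix.nonsingInvUnit P hP
  have : A.map (algebraMap F M) = (U⁻¹).val * Matrix.diagonal (fun s => φ s x) * U.val := by
    rw [mul_assoc]
    show _ = (U⁻¹).val * (Matrix.diagonal (fun s => φ s x) * P)
    rw [← hconj, ← mul_assoc]
    show _ = ((U⁻¹).val * U.val) * _
    rw [Units.inv_mul, one_mul]
  rw [this, Matrix.coe_units_inv, Matrix.charpoly_units_conj']

end Charpoly

theorem twist_one_apply {K : Type*} [Field K] (x : LaurentSeries K) : twist (1 : Kˣ) x = x := by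
  ext k; simp

theorem twist_qExpand {K : Type*} [Field K] (u : Kˣ) (n : ℕ) [NeZero n] (x : LaurentSeries K) :
    twist u (qExpand K n x) = qExpand K n (twist (u ^ n) x) := by
  ext k
  rw [coeff_twist]
  by_cases hk : (n : ℤ) ∣ k
  · obtain ⟨m, rfl⟩ := hk
    rw [qExpand_coeff_mul, qExpand_coeff_mul, coeff_twist, zpow_mul, zpow_natCast]
  · rw [qExpand_coeff_of_not_dvd n _ hk, qExpand_coeff_of_not_dvd n _ hk, mul_zero]

theorem twist_pow_qExpand_eq {K : Type*} [Field K] {ℓ : ℕ} [NeZero ℓ] {ζ : Kˣ}
    (hζ : IsPrimitiveRoot ζ ℓ) (i : ℕ) (x : LaurentSeries K) :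
    twist (ζ ^ i) (qExpand K ℓ x) = qExpand K ℓ x := by
  rw [twist_qExpand, ← pow_mul, mul_comm, pow_mul, hζ.pow_eq_one, one_pow, twist_one_apply]

section Hecke

variable {L : Type*} [Field L] [Algebra ℚ L] (ι : L →+* ℂ) {N ℓ : ℕ} [NeZero N] [NeZero ℓ]

theorem finrankAlong_alpha (hℓ : ℓ.Prime) (hN : ¬ ℓ ∣ N) :
    finrankAlong L (heckeAlphaBar L N ℓ) = ℓ + 1 := by
  have : CharZero L := charZero_of_injective_algebraMap (algebraMap ℚ L).injective
  let := algebraAlong (heckeAlphaBar L N ℓ)
  have := isScalarTower_along (heckeAlphaBar L N ℓ)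
  have : FiniteDimensional (laurentBaseChange L (modularFunctionFieldFull N))
      (laurentBaseChange L (modularFunctionFieldFull (N * ℓ))) :=
    FF.finiteAlong (heckeAlphaBar L N ℓ)
  have h := (FF.finite_and_finrank_adjoin_algebraMap
    (F' := laurentBaseChange L (modularFunctionFieldFull (N * ℓ)))
    (transcendental_jBase N L)).2
  have hj : algebraMap _ (laurentBaseChange L (modularFunctionFieldFull (N * ℓ))) (jBase N L)
      = jBase (N * ℓ) L := Subtype.ext (by
        show (heckeAlphaBar L N ℓ (jBase N L) : LaurentSeries L) = _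
        rw [coe_heckeAlphaBar, coe_jBase, coe_jBase])
  have hψ : dedekindPsi (N * ℓ) = dedekindPsi N * (ℓ + 1) := by
    rw [mul_comm N ℓ, Gamma0.dedekindPsi_mul_of_not_dvd hℓ hN, mul_comm (ℓ + 1)]
  rw [hj, (finrank_baseChange (N * ℓ) L).2, (finrank_baseChange N L).2, hψ] at h
  have hpos : 0 < dedekindPsi N := by
    rw [← natCard_coset]; exact Nat.card_pos
  exact (Nat.eq_of_mul_eq_mul_left hpos h).symm

include ι in
/-- The degree of the second degeneracy map is `ℓ + 1`. -/
theorem finrankAlong_beta (hℓ : ℓ.Prime) (hN : ¬ ℓ ∣ N) :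
    finrankAlong L (heckeBetaBar L N ℓ) = ℓ + 1 := by
  obtain ⟨w, hα, -, -, hi⟩ := exists_alHom ι hℓ (hℓ.coprime_iff_not_dvd.mpr hN).symm
  rw [← finrankAlong_alpha hℓ hN (L := L)]
  exact (@Algebra.finrank_eq_of_equiv_equiv _ _ _ _ (algebraAlong (heckeAlphaBar L N ℓ)) _ _ _ _
    (algebraAlong (heckeBetaBar L N ℓ)) (RingEquiv.refl _)
    { toFun := w, invFun := w, left_inv := hi, right_inv := hi, map_mul' := map_mul w,
      map_add' := map_add w }
    (RingHom.ext fun f => (hα f).symm)).symm

set_option synthInstance.maxHeartbeats 200000 in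
include ι in
/-- The roots of the characteristic polynomial of the Hecke correspondence, in `u = q^(1/ℓ)`. -/
theorem charpoly_beta_alpha_map (hℓ : ℓ.Prime) (hN : ¬ ℓ ∣ N) (ζ : Lˣ) (hζ : IsPrimitiveRoot ζ ℓ)
    (f : laurentBaseChange L (modularFunctionFieldFull N))
    (hfin : FiniteAlong L (heckeBetaBar L N ℓ)) :
    letI := algebraAlong (heckeBetaBar L N ℓ)
    haveI : Module.Finite (laurentBaseChange L (modularFunctionFieldFull N))
      (laurentBaseChange L (modularFunctionFieldFull (N * ℓ))) := hfin
    (Algebra.lmul (laurentBaseChange L (modularFunctionFieldFull N))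
        (laurentBaseChange L (modularFunctionFieldFull (N * ℓ)))
        (heckeAlphaBar L N ℓ f)).charpoly.map
      ((qExpand L ℓ).comp (laurentBaseChange L (modularFunctionFieldFull N)).val.toRingHom)
    = (X - C (qExpand L (ℓ * ℓ) (f : LaurentSeries L)))
      * ∏ i ∈ Finset.range ℓ, (X - C (twist (ζ ^ i) (f : LaurentSeries L))) := by
  let := algebraAlong (heckeBetaBar L N ℓ)
  have : Module.Finite (laurentBaseChange L (modularFunctionFieldFull N))
    (laurentBaseChange L (modularFunctionFieldFull (N * ℓ))) := hfin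
  obtain ⟨w, hα, hβ, -, hi⟩ := exists_alHom ι hℓ (hℓ.coprime_iff_not_dvd.mpr hN).symm
  let : Algebra (laurentBaseChange L (modularFunctionFieldFull N)) (LaurentSeries L) :=
    ((qExpand L ℓ).comp (laurentBaseChange L (modularFunctionFieldFull N)).val.toRingHom).toAlgebra
  let φ : Option (Fin ℓ) → (laurentBaseChange L (modularFunctionFieldFull (N * ℓ))
      →ₐ[laurentBaseChange L (modularFunctionFieldFull N)] LaurentSeries L) := fun o => match o with
    | none =>
      { ((qExpand L ℓ).comp
          (laurentBaseChange L (modularFunctionFieldFull (N * ℓ))).val.toRingHom).comp w with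
        commutes' := fun g => by
          show qExpand L ℓ (w (heckeBetaBar L N ℓ g) : LaurentSeries L) = qExpand L ℓ g
          rw [hβ, coe_heckeAlphaBar] }
    | some i =>
      { (twist (ζ ^ (i : ℕ))).comp
          (laurentBaseChange L (modularFunctionFieldFull (N * ℓ))).val.toRingHom with
        commutes' := fun g => by
          show twist (ζ ^ (i : ℕ)) (heckeBetaBar L N ℓ g : LaurentSeries L) = qExpand L ℓ g
          rw [coe_heckeBetaBar, twist_pow_qExpand_eq hζ] }
  have hnone : ∀ g, φ none (heckeAlphaBar L N ℓ g) = qExpand L (ℓ * ℓ) (g : LaurentSeries L) := by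
    intro g
    show qExpand L ℓ (w (heckeAlphaBar L N ℓ g) : LaurentSeries L) = _
    rw [hα, coe_heckeBetaBar, qExpand_qExpand]
  have hsome : ∀ (i : Fin ℓ) g,
      φ (some i) (heckeAlphaBar L N ℓ g) = twist (ζ ^ (i : ℕ)) (g : LaurentSeries L) := by
    intro i g
    show twist (ζ ^ (i : ℕ)) (heckeAlphaBar L N ℓ g : LaurentSeries L) = _
    rw [coe_heckeAlphaBar]
  have hnd : ¬ ((ℓ * ℓ : ℕ) : ℤ) ∣ (-1 : ℤ) := by
    rw [Int.dvd_neg]
    intro h
    have h1 := Int.natCast_dvd_natCast.mp (show ((ℓ * ℓ : ℕ) : ℤ) ∣ ((1 : ℕ) : ℤ) by exact_mod_cast h)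
    nlinarith [Nat.dvd_one.mp h1, hℓ.two_le]
  have hinj : Function.Injective φ := by
    intro o o' h
    have h1 := congrArg (fun e => (e (heckeAlphaBar L N ℓ (jBase N L))).coeff (-1)) h
    rcases o with _ | i <;> rcases o' with _ | k
    · rfl
    · simp only [hnone, hsome, coe_jBase, coeff_twist, qExpand_coeff_of_not_dvd _ _ hnd,
        coeff_jqModC_neg_one, mul_one] at h1
      exact absurd h1.symm (Units.ne_zero _)
    · simp only [hnone, hsome, coe_jBase, coeff_twist, qExpand_coeff_of_not_dvd _ _ hnd,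
        coeff_jqModC_neg_one, mul_one] at h1
      exact absurd h1 (Units.ne_zero _)
    · simp only [hsome, coe_jBase, coeff_twist, coeff_jqModC_neg_one, mul_one,
        zpow_neg, zpow_one, Units.val_inj, inv_inj] at h1
      exact congrArg some (Fin.ext (hζ.pow_inj i.2 k.2 h1))
  have hcard : Fintype.card (Option (Fin ℓ))
      = Module.finrank (laurentBaseChange L (modularFunctionFieldFull N))
        (laurentBaseChange L (modularFunctionFieldFull (N * ℓ))) := by
    rw [Fintype.card_option, Fintype.card_fin]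
    exact (finrankAlong_beta ι hℓ hN).symm
  refine (charpoly_map_eq_prod_of_card φ hinj hcard (heckeAlphaBar L N ℓ f)).trans ?_
  rw [Fintype.prod_option, hnone]
  simp only [hsome]
  rw [Fin.prod_univ_eq_prod_range (fun i => X - C (twist (ζ ^ i) (f : LaurentSeries L)))]

end Hecke

variable {N ℓ : ℕ} [NeZero N] [NeZero ℓ]

theorem finrankAlong_beta_bar (hℓ : ℓ.Prime) (hN : ¬ ℓ ∣ N) :
    finrankAlong (AlgebraicClosure ℚ) (heckeBetaBar (AlgebraicClosure ℚ) N ℓ) = ℓ + 1 :=
  finrankAlong_beta iotaC hℓ hN

end Fermat.Agent.ModFun
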